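import Mathlib

/-!
# S17 / strand H / block B, leaf B1: the projective Nullstellensatz certificate

Mathlib only.  `k` is an algebraically closed field, `W = zeroLocus k I` a closed set of `k^σ`
cut out by an ideal `I` that is stable under (weighted) homogeneous components (a closed cone).

* `exists_pow_eq_add_sum` : the raw Nullstellensatz relation `f ^ e = a + ∑ c j * p j`, `a ∈ I`,
  for `f` vanishing on the common zeros of the `p j` in `W`.
* `weightedHomogeneousComponent_mul_right`, `weightedHomogeneousComponent_mul_right_eq_zero` :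
  components of a product with a weighted homogeneous factor.
* `exists_weighted_certificate` : the same relation on `W` with weighted homogeneous multipliers
  (any cancellative weight monoid: `ℕ`, `ℕ × ℕ`, `T → ℕ`, ... - multi-graded certificates).
* `exists_certificate` : the standard graded case in the exact shape of the hypothesis of
  Mathlib's `Height.mulHeight_eval_ge` / `Height.logHeight_eval_ge`, valid on `W`.
* `exists_certificate_top` : the case `W = k^σ`.
-/

set_option autoImplicit false

namespace Fermat.Agent.S17.H.B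

open MvPolynomial

section Raw

variable {k : Type*} [Field k] [IsAlgClosed k] {σ ι' : Type*} [Finite σ] [Fintype ι']

/-- Raw Nullstellensatz relation: if `f` vanishes at every common zero of the `p j` inside
`zeroLocus k I`, then some power of `f` lies in `I + (p j)`. -/
theorem exists_pow_eq_add_sum (I : Ideal (MvPolynomial σ k)) (p : ι' → MvPolynomial σ k)
    (f : MvPolynomial σ k)
    (hf : ∀ x ∈ zeroLocus k I, (∀ j, eval x (p j) = 0) → eval x f = 0) :
    ∃ (e : ℕ) (a : MvPolynomial σ k) (c : ι' → MvPolynomial σ k),
      a ∈ I ∧ f ^ e = a + ∑ j, c j * p j := by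
  have hmem : f ∈ vanishingIdeal k (zeroLocus k (I ⊔ Ideal.span (Set.range p))) := by
    rw [mem_vanishingIdeal_iff]
    intro x hx
    have hxI : x ∈ zeroLocus k I := zeroLocus_anti_mono le_sup_left hx
    have hxp : ∀ j, eval x (p j) = 0 := fun j =>
      hx (p j) (Ideal.mem_sup_right (Ideal.subset_span ⟨j, rfl⟩))
    exact hf x hxI hxp
  rw [vanishingIdeal_zeroLocus_eq_radical] at hmem
  obtain ⟨e, he⟩ := hmem
  obtain ⟨a, ha, b, hb, hab⟩ := Submodule.mem_sup.mp he
  obtain ⟨c, hc⟩ := Ideal.mem_span_range_iff_exists_fun.mp hb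
  exact ⟨e, a, c, ha, by rw [← hab, hc]⟩

end Raw

section Components

variable {R : Type*} [CommSemiring R] {σ M : Type*} [AddCommMonoid M] [IsRightCancelAdd M]

/-- The component of weight `m + n` of `c * p`, for `p` weighted homogeneous of weight `n`,
is the component of weight `m` of `c` times `p`. -/
theorem weightedHomogeneousComponent_mul_right {w : σ → M} {p : MvPolynomial σ R} {n : M}
    (hp : IsWeightedHomogeneous w p n) (c : MvPolynomial σ R) (m : M) :
    weightedHomogeneousComponent w (m + n) (c * p) = weightedHomogeneousComponent w m c * p := by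
  classical
  ext d
  rw [coeff_weightedHomogeneousComponent, coeff_mul, coeff_mul]
  have key : ∀ x ∈ Finset.HasAntidiagonal.antidiagonal d,
      (if Finsupp.weight w d = m + n then coeff x.1 c * coeff x.2 p else 0) =
        coeff x.1 (weightedHomogeneousComponent w m c) * coeff x.2 p := by
    intro x hx
    rw [coeff_weightedHomogeneousComponent]
    by_cases h2 : coeff x.2 p = 0
    · simp [h2]
    · have hw2 : Finsupp.weight w x.2 = n := hp h2
      have hd : Finsupp.weight w d = Finsupp.weight w x.1 + n := by
        rw [← Finset.HasAntidiagonal.mem_antidiagonal.mp hx, map_add, hw2]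
      rw [hd]
      by_cases h1 : Finsupp.weight w x.1 = m
      · rw [if_pos (by rw [h1]), if_pos h1]
      · rw [if_neg (fun h => h1 (add_right_cancel h)), if_neg h1, zero_mul]
  rw [show (∑ x ∈ Finset.HasAntidiagonal.antidiagonal d,
      coeff x.1 (weightedHomogeneousComponent w m c) * coeff x.2 p) =
      ∑ x ∈ Finset.HasAntidiagonal.antidiagonal d,
        (if Finsupp.weight w d = m + n then coeff x.1 c * coeff x.2 p else 0) from
    Finset.sum_congr rfl fun x hx => (key x hx).symm]
  by_cases h : Finsupp.weight w d = m + n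
  · simp [h]
  · simp [h]

omit [IsRightCancelAdd M] in
/-- If no weight `m` satisfies `m + n = t`, the component of weight `t` of `c * p` vanishes for
`p` weighted homogeneous of weight `n`. -/
theorem weightedHomogeneousComponent_mul_right_eq_zero {w : σ → M} {p : MvPolynomial σ R} {n : M}
    (hp : IsWeightedHomogeneous w p n) (c : MvPolynomial σ R) (t : M)
    (ht : ∀ m, m + n ≠ t) :
    weightedHomogeneousComponent w t (c * p) = 0 := by
  classical
  ext d
  rw [coeff_weightedHomogeneousComponent, coeff_zero]
  split_ifs with h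
  · rw [coeff_mul]
    refine Finset.sum_eq_zero fun x hx => ?_
    by_cases h2 : coeff x.2 p = 0
    · simp [h2]
    · exfalso
      have hw2 : Finsupp.weight w x.2 = n := hp h2
      refine ht (Finsupp.weight w x.1) ?_
      rw [← h, ← Finset.HasAntidiagonal.mem_antidiagonal.mp hx, map_add, hw2]
  · rfl

end Components

section Certificate

variable {k : Type*} [Field k] [IsAlgClosed k] {σ ι' : Type*} [Finite σ] [Fintype ι']

/-- **Weighted (multi-graded) Nullstellensatz certificate.**  `I` stable under weighted
homogeneous components, `p j` weighted homogeneous of weight `n j`, `f` weighted homogeneous of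
weight `d` vanishing at the common zeros of the `p j` on `zeroLocus k I`.  Then on
`zeroLocus k I` a power `f ^ e` is a combination `∑ q j * p j` with `q j` weighted homogeneous of
the complementary weight (`m + n j = e • d`), or zero when no such weight exists. -/
theorem exists_weighted_certificate {M : Type*} [AddCommMonoid M] [IsRightCancelAdd M]
    (w : σ → M) (I : Ideal (MvPolynomial σ k))
    (hI : ∀ a ∈ I, ∀ m, weightedHomogeneousComponent w m a ∈ I)
    (p : ι' → MvPolynomial σ k) (n : ι' → M)
    (hp : ∀ j, IsWeightedHomogeneous w (p j) (n j))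
    (f : MvPolynomial σ k) (d : M) (hfd : IsWeightedHomogeneous w f d)
    (hf : ∀ x ∈ zeroLocus k I, (∀ j, eval x (p j) = 0) → eval x f = 0) :
    ∃ (e : ℕ) (q : ι' → MvPolynomial σ k),
      (∀ j, q j = 0 ∨ ∃ m, m + n j = e • d ∧ IsWeightedHomogeneous w (q j) m) ∧
      (∃ a ∈ I, f ^ e = a + ∑ j, q j * p j) ∧
      ∀ x ∈ zeroLocus k I, eval x f ^ e = ∑ j, eval x (q j) * eval x (p j) := by
  classical
  obtain ⟨e, a, c, ha, hrel⟩ := exists_pow_eq_add_sum I p f hf
  let q : ι' → MvPolynomial σ k := fun j =>
    if h : ∃ m, m + n j = e • d then weightedHomogeneousComponent w h.choose (c j) else 0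
  have hq : ∀ j, weightedHomogeneousComponent w (e • d) (c j * p j) = q j * p j := by
    intro j
    by_cases h : ∃ m, m + n j = e • d
    · have hqj : q j = weightedHomogeneousComponent w h.choose (c j) := dif_pos h
      rw [hqj, ← weightedHomogeneousComponent_mul_right (hp j) (c j) h.choose, h.choose_spec]
    · have hqj : q j = 0 := dif_neg h
      rw [hqj, zero_mul]
      exact weightedHomogeneousComponent_mul_right_eq_zero (hp j) (c j) (e • d)
        (fun m hm => h ⟨m, hm⟩)
  have hpoly : f ^ e = weightedHomogeneousComponent w (e • d) a + ∑ j, q j * p j := by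
    have h1 : weightedHomogeneousComponent w (e • d) (f ^ e) = f ^ e :=
      (hfd.pow e).weightedHomogeneousComponent_same
    rw [← h1, hrel, map_add, map_sum]
    congr 1
    exact Finset.sum_congr rfl fun j _ => hq j
  refine ⟨e, q, ?_, ⟨_, hI a ha (e • d), hpoly⟩, ?_⟩
  · intro j
    by_cases h : ∃ m, m + n j = e • d
    · right
      refine ⟨h.choose, h.choose_spec, ?_⟩
      have hqj : q j = weightedHomogeneousComponent w h.choose (c j) := dif_pos h
      rw [hqj]
      exact weightedHomogeneousComponent_isWeightedHomogeneous _ _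
    · left
      exact dif_neg h
  · intro x hx
    have h0 : eval x (weightedHomogeneousComponent w (e • d) a) = 0 :=
      hx _ (hI a ha (e • d))
    have := congrArg (eval x) hpoly
    rw [map_pow, map_add, h0, zero_add, map_sum] at this
    rw [this]
    exact Finset.sum_congr rfl fun j _ => map_mul _ _ _

/-- **B1, projective Nullstellensatz certificate on a closed cone** (standard grading), in the
shape of the hypothesis `h` of Mathlib's `Height.mulHeight_eval_ge`: forms `p j` of degree `N`
without common zero on the cone `W = zeroLocus k I` other than the vertex have homogeneous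
multipliers `q (i, j)` of one degree `M` with `∑ j, q (i, j)(x) * p j (x) = x i ^ (M + N)` for all
`x ∈ W` and all coordinates `i`. -/
theorem exists_certificate {ι : Type*} [Finite ι] (I : Ideal (MvPolynomial ι k))
    (hI : ∀ a ∈ I, ∀ m, homogeneousComponent m a ∈ I)
    {N : ℕ} (p : ι' → MvPolynomial ι k) (hp : ∀ j, (p j).IsHomogeneous N)
    (h0 : ∀ x ∈ zeroLocus k I, (∀ j, eval x (p j) = 0) → x = 0) :
    ∃ (M : ℕ) (q : ι × ι' → MvPolynomial ι k), (∀ a, (q a).IsHomogeneous M) ∧
      ∀ x ∈ zeroLocus k I, ∀ i, ∑ j, eval x (q (i, j)) * eval x (p j) = x i ^ (M + N) := by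
  classical
  cases nonempty_fintype ι
  have hX : ∀ i : ι, ∃ (e : ℕ) (q : ι' → MvPolynomial ι k),
      (∀ j, q j = 0 ∨ ∃ m, m + N = e ∧ (q j).IsHomogeneous m) ∧
      ∀ x ∈ zeroLocus k I, x i ^ e = ∑ j, eval x (q j) * eval x (p j) := by
    intro i
    obtain ⟨e, q, hq, -, hrel⟩ := exists_weighted_certificate (1 : ι → ℕ) I hI p (fun _ => N) hp
      (X i) 1 (isHomogeneous_X k i)
      (fun x hx hxp => by rw [h0 x hx hxp]; simp)
    refine ⟨e, q, fun j => ?_, fun x hx => ?_⟩
    · rcases hq j with h | ⟨m, hm, hqm⟩
      · exact Or.inl h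
      · exact Or.inr ⟨m, by simpa using hm, hqm⟩
    · have := hrel x hx
      rwa [eval_X] at this
  choose e q hq hrel using hX
  let M : ℕ := Finset.univ.sup e
  have heM : ∀ i, e i ≤ M := fun i => Finset.le_sup (Finset.mem_univ i)
  refine ⟨M, fun a => X a.1 ^ (M + N - e a.1) * q a.1 a.2, fun a => ?_, fun x hx i => ?_⟩
  · show (X a.1 ^ (M + N - e a.1) * q a.1 a.2).IsHomogeneous M
    rcases hq a.1 a.2 with h | ⟨m, hm, hqm⟩
    · rw [h, mul_zero]
      exact isHomogeneous_zero _ _ _
    · have h1 : (X a.1 ^ (M + N - e a.1) : MvPolynomial ι k).IsHomogeneous (M + N - e a.1) := by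
        have := (isHomogeneous_X k a.1).pow (M + N - e a.1)
        simpa using this
      have h2 := h1.mul hqm
      have hdeg : M + N - e a.1 + m = M := by
        have := heM a.1
        omega
      rwa [hdeg] at h2
  · show ∑ j, eval x (X i ^ (M + N - e i) * q i j) * eval x (p j) = x i ^ (M + N)
    have hsum : ∑ j, eval x (X i ^ (M + N - e i) * q i j) * eval x (p j) =
        x i ^ (M + N - e i) * ∑ j, eval x (q i j) * eval x (p j) := by
      rw [Finset.mul_sum]
      refine Finset.sum_congr rfl fun j _ => ?_
      rw [map_mul, map_pow, eval_X, mul_assoc]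
    rw [hsum, ← hrel i x hx, ← pow_add]
    congr 1
    have := heM i
    omega

/-- The case `W = k^ι` (no cone): forms without nontrivial common zero. -/
theorem exists_certificate_top {ι : Type*} [Finite ι]
    {N : ℕ} (p : ι' → MvPolynomial ι k) (hp : ∀ j, (p j).IsHomogeneous N)
    (h0 : ∀ x : ι → k, (∀ j, eval x (p j) = 0) → x = 0) :
    ∃ (M : ℕ) (q : ι × ι' → MvPolynomial ι k), (∀ a, (q a).IsHomogeneous M) ∧
      ∀ (x : ι → k) (i : ι), ∑ j, eval x (q (i, j)) * eval x (p j) = x i ^ (M + N) := by
  obtain ⟨M, q, hq, hrel⟩ := exists_certificate (⊥ : Ideal (MvPolynomial ι k))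
    (fun a ha m => by
      rw [Ideal.mem_bot] at ha
      rw [ha, map_zero]
      exact Ideal.zero_mem _) p hp
    (fun x _ hx => h0 x hx)
  exact ⟨M, q, hq, fun x i => hrel x (by rw [zeroLocus_bot]; trivial) i⟩

end Certificate

end Fermat.Agent.S17.H.B
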