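import Fermat.Agent.S17.H.B.Certificate

/-!
# S17 / strand H / block B, leaf B1 (continued): certificates on cones and bi-cones

Mathlib only (through `Certificate`).

* `eval_scale` : scaling of a weighted homogeneous polynomial (`ℕ`-weights).
* `weightedHomogeneousComponent_mem_vanishingIdeal` : the vanishing ideal of a set stable under
  the one-parameter scaling `x ↦ (t ^ u s * x s)` is stable under `u`-homogeneous components
  (infinite field).
* `exists_certificate_of_cone` : `exists_certificate` for `W = zeroLocus k J` a cone (no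
  homogeneity hypothesis on the ideal `J`).
* `biWeight`, `exists_bicertificate`, `exists_bicertificate_of_cone` : the bihomogeneous
  certificate on a closed bi-cone of `k^ι × k^κ` (forms of bidegree `(N₁, N₂)` whose common
  zeros on `W` have first block zero or second block zero), uniform bidegree `(M₁, M₂)` of the
  multipliers, `M₁ + N₁ = M₂ + N₂`.
-/

set_option autoImplicit false

namespace Fermat.Agent.S17.H.B

open MvPolynomial

section Scaling

variable {k : Type*} [Field k] {σ : Type*}

/-- Scaling of a weighted homogeneous polynomial. -/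
theorem eval_scale {u : σ → ℕ} {q : MvPolynomial σ k} {n : ℕ}
    (hq : IsWeightedHomogeneous u q n) (t : k) (x : σ → k) :
    eval (fun s => t ^ u s * x s) q = t ^ n * eval x q := by
  rw [eval_eq, eval_eq, Finset.mul_sum]
  refine Finset.sum_congr rfl fun d hd => ?_
  have hw : Finsupp.weight u d = n := hq (mem_support_iff.mp hd)
  have hprod : ∏ s ∈ d.support, (t ^ u s * x s) ^ d s = t ^ n * ∏ s ∈ d.support, x s ^ d s := by
    simp_rw [mul_pow, ← pow_mul]
    rw [Finset.prod_mul_distrib, Finset.prod_pow_eq_pow_sum]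
    congr 2
    rw [← hw, Finsupp.weight_apply, Finsupp.sum]
    refine Finset.sum_congr rfl fun s _ => ?_
    rw [smul_eq_mul, mul_comm]
  rw [hprod]
  ring

/-- A polynomial is the sum of its weighted homogeneous components over any finite set of
weights containing the weights of its monomials. -/
theorem sum_weightedHomogeneousComponent_finset {M : Type*} [AddCommMonoid M] [DecidableEq M]
    (w : σ → M) (a : MvPolynomial σ k) (S : Finset M)
    (hS : ∀ d ∈ a.support, Finsupp.weight w d ∈ S) :
    ∑ n ∈ S, weightedHomogeneousComponent w n a = a := by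
  ext d
  rw [coeff_sum]
  simp_rw [coeff_weightedHomogeneousComponent]
  rw [Finset.sum_ite_eq]
  split_ifs with h
  · rfl
  · have hd : d ∉ a.support := fun hd => h (hS d hd)
    exact (notMem_support_iff.mp hd).symm

/-- The vanishing ideal of a set stable under the scaling `x ↦ (t ^ u s * x s)_s` is stable under
`u`-weighted homogeneous components. -/
theorem weightedHomogeneousComponent_mem_vanishingIdeal [Infinite k] (u : σ → ℕ)
    (W : Set (σ → k)) (hW : ∀ t : k, ∀ x ∈ W, (fun s => t ^ u s * x s) ∈ W)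
    {a : MvPolynomial σ k} (ha : a ∈ vanishingIdeal k W) (n : ℕ) :
    weightedHomogeneousComponent u n a ∈ vanishingIdeal k W := by
  classical
  rw [mem_vanishingIdeal_iff]
  intro x hx
  show eval x (weightedHomogeneousComponent u n a) = 0
  let S : Finset ℕ := insert n (a.support.image (Finsupp.weight u))
  let P : Polynomial k :=
    ∑ m ∈ S, Polynomial.monomial m (eval x (weightedHomogeneousComponent u m a))
  have hP : ∀ t : k, P.eval t = 0 := by
    intro t
    have h1 : eval (fun s => t ^ u s * x s) a = 0 :=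
      (mem_vanishingIdeal_iff.mp ha) _ (hW t x hx)
    have h2 : ∑ m ∈ S, weightedHomogeneousComponent u m a = a :=
      sum_weightedHomogeneousComponent_finset u a S
        (fun d hd => Finset.mem_insert_of_mem (Finset.mem_image_of_mem _ hd))
    rw [← h2, map_sum] at h1
    rw [Polynomial.eval_finsetSum, ← h1]
    refine Finset.sum_congr rfl fun m _ => ?_
    rw [Polynomial.eval_monomial,
      eval_scale (weightedHomogeneousComponent_isWeightedHomogeneous m a) t x, mul_comm]
  have hP0 : P = 0 := Polynomial.funext fun t => by rw [hP t, Polynomial.eval_zero]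
  have hc : P.coeff n = eval x (weightedHomogeneousComponent u n a) := by
    show (∑ m ∈ S, Polynomial.monomial m
      (eval x (weightedHomogeneousComponent u m a))).coeff n = _
    rw [Polynomial.finsetSum_coeff, Finset.sum_eq_single n]
    · rw [Polynomial.coeff_monomial, if_pos rfl]
    · intro m _ hmn
      rw [Polynomial.coeff_monomial, if_neg hmn]
    · intro hn
      exact absurd (Finset.mem_insert_self n _) hn
  rw [← hc, hP0, Polynomial.coeff_zero]

/-- `zeroLocus ∘ vanishingIdeal ∘ zeroLocus = zeroLocus`. -/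
theorem zeroLocus_vanishingIdeal_zeroLocus (J : Ideal (MvPolynomial σ k)) :
    zeroLocus k (vanishingIdeal k (zeroLocus k J)) = zeroLocus k J :=
  le_antisymm (fun _ hx p hp => hx p (le_vanishingIdeal_zeroLocus J hp))
    (zeroLocus_vanishingIdeal_le _)

end Scaling

section Cone

variable {k : Type*} [Field k] [IsAlgClosed k]

/-- **B1 on a cone given by any ideal**: `W = zeroLocus k J` stable under scalar multiplication,
forms `p j` of degree `N` without common zero on `W` other than the vertex. -/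
theorem exists_certificate_of_cone {ι ι' : Type*} [Finite ι] [Fintype ι']
    (J : Ideal (MvPolynomial ι k))
    (hcone : ∀ t : k, ∀ x ∈ zeroLocus k J, t • x ∈ zeroLocus k J)
    {N : ℕ} (p : ι' → MvPolynomial ι k) (hp : ∀ j, (p j).IsHomogeneous N)
    (h0 : ∀ x ∈ zeroLocus k J, (∀ j, eval x (p j) = 0) → x = 0) :
    ∃ (M : ℕ) (q : ι × ι' → MvPolynomial ι k), (∀ a, (q a).IsHomogeneous M) ∧
      ∀ x ∈ zeroLocus k J, ∀ i, ∑ j, eval x (q (i, j)) * eval x (p j) = x i ^ (M + N) := by
  have hZ := zeroLocus_vanishingIdeal_zeroLocus J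
  have hI : ∀ a ∈ vanishingIdeal k (zeroLocus k J), ∀ m,
      homogeneousComponent m a ∈ vanishingIdeal k (zeroLocus k J) := by
    intro a ha m
    refine weightedHomogeneousComponent_mem_vanishingIdeal (1 : ι → ℕ) (zeroLocus k J)
      (fun t x hx => ?_) ha m
    have h := hcone t x hx
    have he : (fun s => t ^ (1 : ι → ℕ) s * x s) = t • x := by
      funext s
      simp
    rw [he]
    exact h
  obtain ⟨M, q, hq, hrel⟩ := exists_certificate (vanishingIdeal k (zeroLocus k J)) hI p hp
    (fun x hx => h0 x (hZ ▸ hx))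
  exact ⟨M, q, hq, fun x hx i => hrel x (hZ.symm ▸ hx) i⟩

end Cone

section Bi

/-- The bi-weight on `ι ⊕ κ`: `(1, 0)` on the first block, `(0, 1)` on the second. -/
def biWeight (ι κ : Type*) : ι ⊕ κ → ℕ × ℕ :=
  Sum.elim (fun _ => (1, 0)) (fun _ => (0, 1))

@[simp] theorem biWeight_inl (ι κ : Type*) (i : ι) : biWeight ι κ (Sum.inl i) = (1, 0) := rfl

@[simp] theorem biWeight_inr (ι κ : Type*) (l : κ) : biWeight ι κ (Sum.inr l) = (0, 1) := rfl

/-- The weight of a pair of `ℕ`-weights is the pair of the weights. -/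
theorem weight_prod_mk {σ : Type*} (u₁ u₂ : σ → ℕ) (d : σ →₀ ℕ) :
    Finsupp.weight (fun s => (u₁ s, u₂ s)) d = (Finsupp.weight u₁ d, Finsupp.weight u₂ d) := by
  simp only [Finsupp.weight_apply, Finsupp.sum]
  refine Prod.ext ?_ ?_
  · rw [Prod.fst_sum]
    simp
  · rw [Prod.snd_sum]
    simp

/-- The component of weight `(m₁, m₂)` for a pair of weights is the iterated component. -/
theorem weightedHomogeneousComponent_prod_mk {R : Type*} [CommSemiring R] {σ : Type*}
    (u₁ u₂ : σ → ℕ) (m₁ m₂ : ℕ) (a : MvPolynomial σ R) :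
    weightedHomogeneousComponent (fun s => (u₁ s, u₂ s)) (m₁, m₂) a =
      weightedHomogeneousComponent u₂ m₂ (weightedHomogeneousComponent u₁ m₁ a) := by
  classical
  ext d
  simp only [coeff_weightedHomogeneousComponent, weight_prod_mk, Prod.mk.injEq]
  by_cases h1 : Finsupp.weight u₁ d = m₁ <;> by_cases h2 : Finsupp.weight u₂ d = m₂ <;>
    simp [h1, h2]

theorem biWeight_eq (ι κ : Type*) :
    biWeight ι κ = fun s =>
      ((Sum.elim (fun _ => 1) (fun _ => 0) : ι ⊕ κ → ℕ) s,
        (Sum.elim (fun _ => 0) (fun _ => 1) : ι ⊕ κ → ℕ) s) := by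
  funext s
  cases s <;> rfl

variable {k : Type*} [Field k] [IsAlgClosed k]

/-- **Bihomogeneous Nullstellensatz certificate** on `W = zeroLocus k I ⊆ k^ι × k^κ`, `I` stable
under bihomogeneous components: forms `p j` of bidegree `(N₁, N₂)` whose common zeros on `W` have
zero first block or zero second block have multipliers `q ((i, l), j)` of one bidegree `(M₁, M₂)`,
`M₁ + N₁ = M₂ + N₂`, with `∑ j, q ((i, l), j) * p j = (x i * y l) ^ (M₁ + N₁)` on `W`. -/
theorem exists_bicertificate {ι κ ι' : Type*} [Finite ι] [Finite κ] [Fintype ι']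
    (I : Ideal (MvPolynomial (ι ⊕ κ) k))
    (hI : ∀ a ∈ I, ∀ m, weightedHomogeneousComponent (biWeight ι κ) m a ∈ I)
    {N₁ N₂ : ℕ} (p : ι' → MvPolynomial (ι ⊕ κ) k)
    (hp : ∀ j, IsWeightedHomogeneous (biWeight ι κ) (p j) (N₁, N₂))
    (h0 : ∀ z ∈ zeroLocus k I, (∀ j, eval z (p j) = 0) →
      (∀ i, z (Sum.inl i) = 0) ∨ (∀ l, z (Sum.inr l) = 0)) :
    ∃ (M₁ M₂ : ℕ) (q : (ι × κ) × ι' → MvPolynomial (ι ⊕ κ) k),
      M₁ + N₁ = M₂ + N₂ ∧ (∀ a, IsWeightedHomogeneous (biWeight ι κ) (q a) (M₁, M₂)) ∧
      ∀ z ∈ zeroLocus k I, ∀ i l,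
        ∑ j, eval z (q ((i, l), j)) * eval z (p j) =
          (z (Sum.inl i) * z (Sum.inr l)) ^ (M₁ + N₁) := by
  classical
  cases nonempty_fintype ι
  cases nonempty_fintype κ
  have hX : ∀ a : ι × κ, ∃ (e : ℕ) (q : ι' → MvPolynomial (ι ⊕ κ) k),
      (∀ j, q j = 0 ∨ (N₁ ≤ e ∧ N₂ ≤ e ∧
        IsWeightedHomogeneous (biWeight ι κ) (q j) (e - N₁, e - N₂))) ∧
      ∀ z ∈ zeroLocus k I,
        (z (Sum.inl a.1) * z (Sum.inr a.2)) ^ e = ∑ j, eval z (q j) * eval z (p j) := by
    intro a
    have hf := (isWeightedHomogeneous_X k (biWeight ι κ) (Sum.inl a.1)).mul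
      (isWeightedHomogeneous_X k (biWeight ι κ) (Sum.inr a.2))
    obtain ⟨e, q, hq, -, hrel⟩ := exists_weighted_certificate (biWeight ι κ) I hI p
      (fun _ => (N₁, N₂)) hp _ _ hf (fun z hz hzp => by
        rcases h0 z hz hzp with h | h
        · simp [h a.1]
        · simp [h a.2])
    refine ⟨e, q, fun j => ?_, fun z hz => ?_⟩
    · rcases hq j with h | ⟨m, hm, hqm⟩
      · exact Or.inl h
      · right
        have h1 := congrArg Prod.fst hm
        have h2 := congrArg Prod.snd hm
        simp at h1 h2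
        refine ⟨by omega, by omega, ?_⟩
        have hm' : m = (e - N₁, e - N₂) := Prod.ext (by simp; omega) (by simp; omega)
        rwa [hm'] at hqm
    · have h := hrel z hz
      simpa using h
  choose e q hq hrel using hX
  obtain ⟨E, hE⟩ : ∃ E, E = Finset.univ.sup e + N₁ + N₂ := ⟨_, rfl⟩
  have heE : ∀ a, e a ≤ E := fun a => by
    have := Finset.le_sup (f := e) (Finset.mem_univ a)
    omega
  refine ⟨E - N₁, E - N₂,
    fun b => (X (Sum.inl b.1.1) * X (Sum.inr b.1.2)) ^ (E - e b.1) * q b.1 b.2,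
    by omega, fun b => ?_, fun z hz i l => ?_⟩
  · show IsWeightedHomogeneous (biWeight ι κ)
      ((X (Sum.inl b.1.1) * X (Sum.inr b.1.2)) ^ (E - e b.1) * q b.1 b.2) (E - N₁, E - N₂)
    rcases hq b.1 b.2 with h | ⟨h1, h2, hqm⟩
    · rw [h, mul_zero]
      exact isWeightedHomogeneous_zero k _ _
    · have hpow := ((isWeightedHomogeneous_X k (biWeight ι κ) (Sum.inl b.1.1)).mul
        (isWeightedHomogeneous_X k (biWeight ι κ) (Sum.inr b.1.2))).pow (E - e b.1)
      have h3 := hpow.mul hqm
      have hw : (E - e b.1) • (biWeight ι κ (Sum.inl b.1.1) + biWeight ι κ (Sum.inr b.1.2)) +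
          (e b.1 - N₁, e b.1 - N₂) = (E - N₁, E - N₂) := by
        have := heE b.1
        refine Prod.ext ?_ ?_
        · simp
          omega
        · simp
          omega
      rwa [hw] at h3
  · show ∑ j, eval z ((X (Sum.inl i) * X (Sum.inr l)) ^ (E - e (i, l)) * q (i, l) j) *
        eval z (p j) = (z (Sum.inl i) * z (Sum.inr l)) ^ (E - N₁ + N₁)
    have hsum : ∑ j, eval z ((X (Sum.inl i) * X (Sum.inr l)) ^ (E - e (i, l)) * q (i, l) j) *
        eval z (p j) = (z (Sum.inl i) * z (Sum.inr l)) ^ (E - e (i, l)) *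
          ∑ j, eval z (q (i, l) j) * eval z (p j) := by
      rw [Finset.mul_sum]
      refine Finset.sum_congr rfl fun j _ => ?_
      simp only [map_mul, map_pow, eval_X]
      ring
    rw [hsum, ← hrel (i, l) z hz, ← pow_add]
    congr 1
    have := heE (i, l)
    omega

/-- **Bihomogeneous certificate on a bi-cone given by any ideal** `J`: `W = zeroLocus k J` stable
under scaling of each block separately. -/
theorem exists_bicertificate_of_cone {ι κ ι' : Type*} [Finite ι] [Finite κ] [Fintype ι']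
    (J : Ideal (MvPolynomial (ι ⊕ κ) k))
    (hcone₁ : ∀ t : k, ∀ z ∈ zeroLocus k J,
      Sum.elim (fun i => t * z (Sum.inl i)) (fun l => z (Sum.inr l)) ∈ zeroLocus k J)
    (hcone₂ : ∀ t : k, ∀ z ∈ zeroLocus k J,
      Sum.elim (fun i => z (Sum.inl i)) (fun l => t * z (Sum.inr l)) ∈ zeroLocus k J)
    {N₁ N₂ : ℕ} (p : ι' → MvPolynomial (ι ⊕ κ) k)
    (hp : ∀ j, IsWeightedHomogeneous (biWeight ι κ) (p j) (N₁, N₂))
    (h0 : ∀ z ∈ zeroLocus k J, (∀ j, eval z (p j) = 0) →
      (∀ i, z (Sum.inl i) = 0) ∨ (∀ l, z (Sum.inr l) = 0)) :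
    ∃ (M₁ M₂ : ℕ) (q : (ι × κ) × ι' → MvPolynomial (ι ⊕ κ) k),
      M₁ + N₁ = M₂ + N₂ ∧ (∀ a, IsWeightedHomogeneous (biWeight ι κ) (q a) (M₁, M₂)) ∧
      ∀ z ∈ zeroLocus k J, ∀ i l,
        ∑ j, eval z (q ((i, l), j)) * eval z (p j) =
          (z (Sum.inl i) * z (Sum.inr l)) ^ (M₁ + N₁) := by
  have hZ := zeroLocus_vanishingIdeal_zeroLocus J
  have hI : ∀ a ∈ vanishingIdeal k (zeroLocus k J), ∀ m,
      weightedHomogeneousComponent (biWeight ι κ) m a ∈ vanishingIdeal k (zeroLocus k J) := by
    intro a ha m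
    obtain ⟨m₁, m₂⟩ := m
    rw [biWeight_eq, weightedHomogeneousComponent_prod_mk]
    refine weightedHomogeneousComponent_mem_vanishingIdeal _ (zeroLocus k J)
      (fun t z hz => ?_) ?_ m₂
    · have h := hcone₂ t z hz
      have he : (fun s => t ^ (Sum.elim (fun _ => 0) (fun _ => 1) : ι ⊕ κ → ℕ) s * z s) =
          Sum.elim (fun i => z (Sum.inl i)) (fun l => t * z (Sum.inr l)) := by
        funext s
        cases s <;> simp
      rw [he]
      exact h
    · refine weightedHomogeneousComponent_mem_vanishingIdeal _ (zeroLocus k J)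
        (fun t z hz => ?_) ha m₁
      have h := hcone₁ t z hz
      have he : (fun s => t ^ (Sum.elim (fun _ => 1) (fun _ => 0) : ι ⊕ κ → ℕ) s * z s) =
          Sum.elim (fun i => t * z (Sum.inl i)) (fun l => z (Sum.inr l)) := by
        funext s
        cases s <;> simp
      rw [he]
      exact h
  obtain ⟨M₁, M₂, q, hM, hq, hrel⟩ := exists_bicertificate (vanishingIdeal k (zeroLocus k J)) hI
    p hp (fun z hz => h0 z (hZ ▸ hz))
  exact ⟨M₁, M₂, q, hM, hq, fun z hz i l => hrel z (hZ.symm ▸ hz) i l⟩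

end Bi

end Fermat.Agent.S17.H.B
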